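import Fermat.Agent.CFT.NI.Pair

/-!
# WP NI-FILT : the unit filtration; `h(U^(r)) = h(Λ_r)` for `r` large.

`v N = v π ^ e`.  For `r > e`, `r ≥ r₀`:
* `u ∈ U^(r) ⇒ u^N ∈ U^(r+e)`  (`(1+x)^N = 1 + N x + x² (…)`, `2 r ≥ r + e`);
* `U^(r+e) ⊆ (U^(r))^N` (hypothesis `hensel`);
* no `N`-torsion in `U^(r)`: `(1+x)^N - 1 = x (N + x (…))`, `v (x (…)) < v N`;
hence `(U^(r))^(N²) = U^(r+2e)`; `N² Λ_r = Λ_(r+2e)`; for `r ≥ 2e`, `φ u = u - 1` satisfies
`φ (u u') - φ u - φ u' = (u-1)(u'-1) ∈ Λ_(2r) ⊆ Λ_(r+2e)`.  Apply `mh_eq_h_of_pair`.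
-/

set_option autoImplicit false

namespace Fermat.Agent.CFT.NI

open Fermat.Agent.CFT.HQ

variable {E : Type} [Field E] {Γ₀ : Type} [LinearOrderedCommGroupWithZero Γ₀]
  {v : Valuation E Γ₀} {σ : E ≃+* E} {N : ℕ} {π : E}

namespace Filt

lemma val_natCast_le_one (v : Valuation E Γ₀) (n : ℕ) : v (n : E) ≤ 1 := by
  induction n with
  | zero => simp
  | succ n ih =>
    rw [Nat.cast_succ]
    exact (v.map_add _ _).trans (max_le ih (by simp))

lemma val_pi_ne_zero (h : CycLocal v σ N π) : v π ≠ 0 := (Valuation.ne_zero_iff v).2 h.pi_ne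

lemma val_pi_pos (h : CycLocal v σ N π) : 0 < v π := zero_lt_iff.2 (val_pi_ne_zero h)

lemma pow_anti (h : CycLocal v σ N π) {m n : ℕ} (hmn : m ≤ n) : v π ^ n ≤ v π ^ m :=
  pow_le_pow_right_of_le_one' h.pi_lt.le hmn

lemma pow_lt_one (h : CycLocal v σ N π) {n : ℕ} (hn : 0 < n) : v π ^ n < 1 :=
  pow_lt_one' h.pi_lt hn.ne'

/-- a nonzero element of valuation `≤ 1` has valuation `v π ^ n`, `n : ℕ`. -/
lemma exists_nat_pow (h : CycLocal v σ N π) {x : E} (hx : x ≠ 0) (hx1 : v x ≤ 1) :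
    ∃ n : ℕ, v x = v π ^ n := by
  obtain ⟨n, hn⟩ := h.disc x hx
  rcases le_or_gt 0 n with h0 | h0
  · refine ⟨n.toNat, ?_⟩
    rw [hn, ← zpow_natCast, Int.toNat_of_nonneg h0]
  · exfalso
    have h1 : 1 < v π ^ n := by
      have h2 : v π ^ n = ((v π) ^ (-n).toNat)⁻¹ := by
        rw [← zpow_natCast, Int.toNat_of_nonneg (by omega), zpow_neg, inv_inv]
      rw [h2]
      have h3 : v π ^ (-n).toNat < 1 := pow_lt_one h (by omega)
      have h4 : v π ^ (-n).toNat ≠ 0 := pow_ne_zero _ (val_pi_ne_zero h)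
      exact (one_lt_inv₀ (zero_lt_iff.2 h4)).2 h3
    rw [← hn] at h1
    exact absurd hx1 (not_le.2 h1)

/-- `v x < 1 → v x ≤ v π`. -/
lemma le_val_pi_of_lt_one (h : CycLocal v σ N π) {x : E} (hx : v x < 1) : v x ≤ v π := by
  rcases eq_or_ne x 0 with rfl | hx0
  · simp
  · obtain ⟨n, hn⟩ := exists_nat_pow h hx0 hx.le
    rcases Nat.eq_zero_or_pos n with rfl | hpos
    · rw [hn, pow_zero] at hx
      exact absurd hx (lt_irrefl _)
    · rw [hn]
      simpa using pow_anti h (Nat.succ_le_of_lt hpos)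

end Filt

theorem CycLocal.exists_val_N (h : CycLocal v σ N π) : ∃ e : ℕ, v (N : E) = v π ^ e :=
  Filt.exists_nat_pow h h.N_ne (Filt.val_natCast_le_one v N)

namespace Filt

/-- finite approximation modulo `π ^ r`. -/
lemma exists_finset_approx (h : CycLocal v σ N π) (r : ℕ) :
    ∃ T : Finset E, ∀ x, v x ≤ 1 → ∃ t ∈ T, v (x - t) ≤ v π ^ r := by
  classical
  induction r with
  | zero => exact ⟨{0}, fun x hx => ⟨0, by simp, by simpa using hx⟩⟩
  | succ r ih =>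
    obtain ⟨T₀, hT₀⟩ := h.fin
    obtain ⟨T, hT⟩ := ih
    refine ⟨(T₀ ×ˢ T).image fun p => p.1 + π * p.2, fun x hx => ?_⟩
    obtain ⟨t₀, ht₀, hxt₀⟩ := hT₀ x hx
    have h1 : v ((x - t₀) / π) ≤ 1 := by
      rw [map_div₀]
      exact div_le_one_of_le₀ (le_val_pi_of_lt_one h hxt₀) zero_le
    obtain ⟨t, ht, hxt⟩ := hT _ h1
    refine ⟨t₀ + π * t, Finset.mem_image.2 ⟨(t₀, t), Finset.mem_product.2 ⟨ht₀, ht⟩, rfl⟩, ?_⟩
    have h2 : x - (t₀ + π * t) = π * ((x - t₀) / π - t) := by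
      have := h.pi_ne
      field_simp
      ring
    rw [h2, map_mul, pow_succ']
    exact mul_le_mul_right hxt _


/-- finiteness of a quotient from a finite "approximation" map. -/
lemma finite_quotient_of_map {G : Type*} [Group G] (H : Subgroup G) {X : Type*} [Finite X]
    (f : G → X) (hf : ∀ a b, f a = f b → a⁻¹ * b ∈ H) : Finite (G ⧸ H) := by
  classical
  let rep : X → G ⧸ H := fun x => if hx : ∃ a, f a = x then ((hx.choose : G) : G ⧸ H) else ((1 : G) : G ⧸ H)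
  apply Finite.of_surjective rep
  intro q
  obtain ⟨a, rfl⟩ := QuotientGroup.mk_surjective q
  refine ⟨f a, ?_⟩
  have hx : ∃ b, f b = f a := ⟨a, rfl⟩
  simp only [rep, dif_pos hx]
  exact QuotientGroup.eq.2 (hf _ _ hx.choose_spec)

end Filt

/-- `U^(r)` has finite index in `U^(0) = O^×` -/
theorem CycLocal.relIndex_UU_ne_zero (h : CycLocal v σ N π) (r : ℕ) :
    (UU v π r).relIndex (UU v π 0) ≠ 0 := by
  classical
  obtain ⟨T, hT⟩ := Filt.exists_finset_approx h r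
  have hch : ∀ u : ↥(UU v π 0), ∃ t : ↥T, v (((u : Eˣ) : E) - t) ≤ v π ^ r := by
    intro u
    obtain ⟨t, ht, hut⟩ := hT ((u : Eˣ) : E) u.2.1.le
    exact ⟨⟨t, ht⟩, hut⟩
  choose f hf using hch
  have : Finite (↥(UU v π 0) ⧸ (UU v π r).subgroupOf (UU v π 0)) := by
    apply Filt.finite_quotient_of_map _ f
    intro a b hab
    rw [Subgroup.mem_subgroupOf]
    refine ⟨by simp [a.2.1, b.2.1], ?_⟩
    have h1 : v (((b : Eˣ) : E) - ((a : Eˣ) : E)) ≤ v π ^ r := by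
      have : ((b : Eˣ) : E) - ((a : Eˣ) : E) =
          (((b : Eˣ) : E) - f b) - (((a : Eˣ) : E) - f a) := by rw [hab]; ring
      rw [this]
      exact (v.map_sub _ _).trans (max_le (hf b) (hf a))
    have h2 : (((a⁻¹ * b : ↥(UU v π 0)) : Eˣ) : E) - 1 =
        (((a : Eˣ)⁻¹ : Eˣ) : E) * (((b : Eˣ) : E) - ((a : Eˣ) : E)) := by
      push_cast
      rw [mul_sub, inv_mul_cancel₀ (Units.ne_zero _)]
    rw [h2, map_mul]
    have h3 : v (((a : Eˣ)⁻¹ : Eˣ) : E) = 1 := by simp [a.2.1]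
    rw [h3, one_mul]
    exact h1
  exact Subgroup.index_ne_zero_of_finite

namespace Filt

/-- `(1+x)^n = 1 + n x + k x²` with `k` integral. -/
lemma exists_binom (v : Valuation E Γ₀) {x : E} (hx : v x ≤ 1) (n : ℕ) :
    ∃ k : E, v k ≤ 1 ∧ (1 + x) ^ n = 1 + n * x + k * x ^ 2 := by
  induction n with
  | zero => exact ⟨0, by simp, by simp⟩
  | succ n ih =>
    obtain ⟨k, hk, hkn⟩ := ih
    refine ⟨n + k + k * x, ?_, ?_⟩
    · refine (v.map_add _ _).trans (max_le ((v.map_add _ _).trans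
        (max_le (val_natCast_le_one v n) hk)) ?_)
      rw [map_mul]
      exact mul_le_one' hk hx
    · rw [pow_succ, hkn]
      push_cast
      ring

variable {e : ℕ}

/-- `u ∈ U^(r)`, `e ≤ r` ⇒ `v (u^N - 1) ≤ v π ^ (r+e)`. -/
lemma val_pow_sub_one_le (h : CycLocal v σ N π) (he : v (N : E) = v π ^ e) {r : ℕ} (her : e ≤ r)
    {u : E} (hu : v (u - 1) ≤ v π ^ r) : v (u ^ N - 1) ≤ v π ^ (r + e) := by
  have hx1 : v (u - 1) ≤ 1 := hu.trans (pow_le_one' h.pi_lt.le r)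
  obtain ⟨k, hk, hkN⟩ := exists_binom v hx1 N
  have h1 : u ^ N - 1 = N * (u - 1) + k * (u - 1) ^ 2 := by
    have : (1 + (u - 1)) = u := by ring
    rw [this] at hkN
    rw [hkN]; ring
  rw [h1]
  refine (v.map_add _ _).trans (max_le ?_ ?_)
  · rw [map_mul, he, add_comm r e, pow_add]
    exact mul_le_mul_right hu _
  · rw [map_mul, map_pow]
    calc v k * v (u - 1) ^ 2 ≤ 1 * (v π ^ r) ^ 2 := mul_le_mul' hk (pow_le_pow_left' hu 2)
      _ = v π ^ (r + r) := by rw [one_mul, ← pow_mul, mul_two]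
      _ ≤ v π ^ (r + e) := pow_anti h (by omega)

/-- no `N`-torsion in `U^(r)` for `r > e`. -/
lemma eq_one_of_pow_eq_one (h : CycLocal v σ N π) (he : v (N : E) = v π ^ e) {r : ℕ} (her : e < r)
    {u : E} (hu : v (u - 1) ≤ v π ^ r) (huN : u ^ N = 1) : u = 1 := by
  have hx1 : v (u - 1) ≤ 1 := hu.trans (pow_le_one' h.pi_lt.le r)
  obtain ⟨k, hk, hkN⟩ := exists_binom v hx1 N
  have h1 : (u - 1) * (N + k * (u - 1)) = 0 := by
    have : (1 + (u - 1)) = u := by ring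
    rw [this, huN] at hkN
    linear_combination -hkN
  rcases mul_eq_zero.1 h1 with h2 | h2
  · exact sub_eq_zero.1 h2
  · exfalso
    have h3 : v (k * (u - 1)) < v (N : E) := by
      rw [map_mul, he]
      calc v k * v (u - 1) ≤ 1 * v π ^ r := mul_le_mul' hk hu
        _ = v π ^ r := one_mul _
        _ < v π ^ e := pow_lt_pow_right_of_lt_one₀ (val_pi_pos h) h.pi_lt her
    have h4 : v ((N : E) + k * (u - 1)) = v (N : E) := Valuation.map_add_eq_of_lt_left v h3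
    rw [h2, map_zero] at h4
    exact h.N_ne ((Valuation.zero_iff v).1 h4.symm)

/-- `v (x - 1) < 1 → v x = 1`. -/
lemma val_eq_one_of_sub (v : Valuation E Γ₀) {x : E} (hx : v (x - 1) < 1) : v x = 1 := by
  have : x = 1 + (x - 1) := by ring
  rw [this]
  have h1 : v (x - 1) < v (1 : E) := by simpa using hx
  rw [Valuation.map_add_eq_of_lt_left v h1, map_one]


lemma coe_sUU_iterate (hinv : ∀ x, v (σ x) = v x) (π : E) (r n : ℕ) (x : ↥(UU v π r)) :
    ((((sUU hinv π r)^[n] x : ↥(UU v π r)) : Eˣ) : E) = σ^[n] ((x : Eˣ) : E) := by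
  induction n with
  | zero => rfl
  | succ n ih =>
    rw [Function.iterate_succ_apply', Function.iterate_succ_apply', ← ih]
    rfl

lemma coe_sLam_iterate (hinv : ∀ x, v (σ x) = v x) (π : E) (r n : ℕ) (x : ↥(Lam v π r)) :
    (((sLam hinv π r)^[n] x : ↥(Lam v π r)) : E) = σ^[n] (x : E) := by
  induction n with
  | zero => rfl
  | succ n ih =>
    rw [Function.iterate_succ_apply', Function.iterate_succ_apply', ← ih]
    rfl

/-- division by `N²` maps `Λ_(r+2e)` to `Λ_r`. -/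
lemma val_div_sq_le (h : CycLocal v σ N π) (he : v (N : E) = v π ^ e) {r : ℕ} {x : E}
    (hx : v x ≤ v π ^ (r + 2 * e)) : v (x / (N : E) ^ 2) ≤ v π ^ r := by
  rw [map_div₀, map_pow, he, ← pow_mul, mul_comm e 2]
  have hpos : 0 < v π ^ (2 * e) := pow_pos (val_pi_pos h) _
  rw [div_le_iff₀ hpos, ← pow_add]
  exact hx

end Filt

theorem CycLocal.mh_UU_eq (h : CycLocal v σ N π) :
    ∃ r₁ : ℕ, ∀ r, r₁ ≤ r → mh0 N (sUU h.inv π r) = h0 N (sLam h.inv π r) ∧
      mh1 N (sUU h.inv π r) = h1 N (sLam h.inv π r) := by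
  obtain ⟨e, he⟩ := h.exists_val_N
  obtain ⟨r₀, hr₀⟩ := h.hensel
  refine ⟨r₀ + 2 * e + 1, fun r hr => ?_⟩
  have hr1 : 0 < r := by omega
  have her : e < r := by omega
  have h2e : 2 * e ≤ r := by omega
  have hrr₀ : r₀ ≤ r := by omega
  have hN2 : ((N : E) ^ 2) ≠ 0 := pow_ne_zero _ h.N_ne
  have hlt1 : v π ^ r < 1 := Filt.pow_lt_one h hr1
  let φ : ↥(UU v π r) → ↥(Lam v π r) := fun u => ⟨((u : Eˣ) : E) - 1, u.2.2⟩
  have hφ : ∀ u, ((φ u : ↥(Lam v π r)) : E) = ((u : Eˣ) : E) - 1 := fun _ => rfl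
  -- construction of elements of `U^(r)`
  have mkU : ∀ z : E, v (z - 1) ≤ v π ^ r → ∃ w : ↥(UU v π r), ((w : Eˣ) : E) = z := by
    intro z hz
    have hz1 : v z = 1 := Filt.val_eq_one_of_sub v (hz.trans_lt hlt1)
    have hz0 : z ≠ 0 := by
      rintro rfl
      simp at hz1
    exact ⟨⟨Units.mk0 z hz0, hz1, hz⟩, rfl⟩
  have smulA : ∀ a : ↥(Lam v π r), (((N ^ 2) • a : ↥(Lam v π r)) : E) = (N : E) ^ 2 * (a : E) := by
    intro a
    rw [AddSubgroup.coe_nsmul, nsmul_eq_mul]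
    push_cast
    rfl
  refine mh_eq_h_of_pair h.N_pos ?_ ?_ ?_ ?_ φ ⟨?_, ?_⟩ ?_ ?_ ?_
  · intro x
    apply Subtype.ext
    apply Units.ext
    rw [Filt.coe_sUU_iterate, h.iter]
  · intro x
    apply Subtype.ext
    rw [Filt.coe_sLam_iterate, h.iter]
  · intro u hu
    apply Subtype.ext
    apply Units.ext
    have h1 : (((u : Eˣ) : E)) ^ N = 1 := by
      have := congrArg (fun w : ↥(UU v π r) => ((w : Eˣ) : E)) hu
      simpa using this
    simpa using Filt.eq_one_of_pow_eq_one h he her u.2.2 h1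
  · intro a ha
    apply Subtype.ext
    have h1 : (N : E) * (a : E) = 0 := by
      have := congrArg (fun w : ↥(Lam v π r) => (w : E)) ha
      simpa [AddSubgroup.coe_nsmul, nsmul_eq_mul] using this
    simpa using (mul_eq_zero.1 h1).resolve_left h.N_ne
  · intro u u' huu'
    apply Subtype.ext
    apply Units.ext
    have := congrArg (fun w : ↥(Lam v π r) => (w : E)) huu'
    simpa [hφ] using this
  · intro x
    obtain ⟨w, hw⟩ := mkU (1 + x) (by
      have : (1 + (x : E)) - 1 = x := by ring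
      rw [this]
      exact x.2)
    refine ⟨w, Subtype.ext ?_⟩
    rw [hφ, hw]
    ring
  · intro u
    apply Subtype.ext
    rw [hφ, coe_sLam, hφ, map_sub, map_one]
    rfl
  · intro u u'
    have hx : v ((((u : Eˣ) : E) - 1) * (((u' : Eˣ) : E) - 1)) ≤ v π ^ (r + 2 * e) := by
      rw [map_mul, pow_add]
      exact mul_le_mul' u.2.2 (u'.2.2.trans (Filt.pow_anti h h2e))
    refine ⟨⟨_, Filt.val_div_sq_le h he hx⟩, Subtype.ext ?_⟩
    rw [smulA, mul_div_cancel₀ _ hN2]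
    simp only [AddSubgroup.coe_sub, hφ]
    push_cast
    ring
  · intro u
    constructor
    · rintro ⟨w, rfl⟩
      have h1 : v ((((w : Eˣ) : E)) ^ N - 1) ≤ v π ^ (r + e) :=
        Filt.val_pow_sub_one_le h he her.le w.2.2
      have h2 : v (((((w : Eˣ) : E)) ^ N) ^ N - 1) ≤ v π ^ (r + e + e) :=
        Filt.val_pow_sub_one_le h he (by omega) h1
      have hx : v ((((w : Eˣ) : E)) ^ (N ^ 2) - 1) ≤ v π ^ (r + 2 * e) := by
        rw [pow_two, pow_mul, two_mul, ← add_assoc]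
        exact h2
      refine ⟨⟨_, Filt.val_div_sq_le h he hx⟩, Subtype.ext ?_⟩
      rw [smulA, mul_div_cancel₀ _ hN2, hφ]
      push_cast
      rfl
    · rintro ⟨a, ha⟩
      have h1 : ((u : Eˣ) : E) - 1 = (N : E) ^ 2 * (a : E) := by
        rw [← smulA, ← ha, hφ]
      have h2 : v (((u : Eˣ) : E) - 1) ≤ v π ^ (r + e) * v (N : E) := by
        rw [h1, map_mul, map_pow, he]
        calc (v π ^ e) ^ 2 * v (a : E) ≤ (v π ^ e) ^ 2 * v π ^ r := mul_le_mul_right a.2 _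
          _ = v π ^ (r + e) * v π ^ e := by rw [pow_add, pow_two]; ac_rfl
      obtain ⟨y, hy, hyu⟩ := hr₀ (r + e) (by omega) _ h2
      have h3 : v (y - 1) ≤ v π ^ r * v (N : E) := by rwa [he, ← pow_add]
      obtain ⟨z, hz, hzy⟩ := hr₀ r hrr₀ _ h3
      obtain ⟨w, hw⟩ := mkU z hz
      refine ⟨w, Subtype.ext (Units.ext ?_)⟩
      push_cast
      rw [hw, pow_two, pow_mul, hzy, hyu]

end Fermat.Agent.CFT.NI
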