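import Fermat.Agent.CFT.NI.Lat
import Fermat.Agent.CFT.NI.Filt

/-!
# WP NI-MAIN : assembly, `[kˣ : N Eˣ] = N`.

`ord : Eˣ →* Multiplicative ℤ` (from `disc`, `v π < 1`), onto, `σ`-invariant, kernel `U^(0)`;
`h_mul_of_val`:  `mh0 Eˣ * mh1 U^(0) = mh1 Eˣ * mh0 U^(0) * N`;
`h_mul_of_finiteIndex` (inside `U^(0)`) : `h(U^(0)) = h(U^(r))`; `mh_UU_eq`, `h_Lam`, `mh1_units`.
-/

set_option autoImplicit false

namespace Fermat.Agent.CFT.NI

open Fermat.Agent.CFT.HQ Finset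

variable {E : Type} [Field E] {Γ₀ : Type} [LinearOrderedCommGroupWithZero Γ₀]
  {v : Valuation E Γ₀} {σ : E ≃+* E} {N : ℕ} {π : E}

theorem CycLocal.sU_iter (h : CycLocal v σ N π) (u : Eˣ) : (sU σ)^[N] u = u :=
  Units.ext (by rw [coe_sU_iterate, h.iter])

theorem coe_resSub_iterate {U : Type*} [CommGroup U] (τ : U →* U) (V : Subgroup U)
    (hV : ∀ x ∈ V, τ x ∈ V) (i : ℕ) (x : V) : (((resSub τ V hV)^[i] x : V) : U) = τ^[i] x := by
  induction i with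
  | zero => rfl
  | succ k ih => rw [Function.iterate_succ_apply', Function.iterate_succ_apply', resSub_coe, ih]

theorem CycLocal.sUU_iter (h : CycLocal v σ N π) (r : ℕ) (u : ↥(UU v π r)) :
    (sUU h.inv π r)^[N] u = u :=
  Subtype.ext (by rw [sUU, coe_resSub_iterate, h.sU_iter])

theorem CycLocal.UU_anti (h : CycLocal v σ N π) {r s : ℕ} (hrs : r ≤ s) :
    UU v π s ≤ UU v π r := fun _ hx =>
  ⟨hx.1, le_trans hx.2 (pow_le_pow_right_of_le_one' h.pi_lt.le hrs)⟩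

theorem CycLocal.mh_UU_zero (h : CycLocal v σ N π) :
    mh0 N (sUU h.inv π 0) = mh1 N (sUU h.inv π 0) ∧ mh0 N (sUU h.inv π 0) ≠ 0 := by
  obtain ⟨r, hr⟩ := h.mh_UU_eq
  obtain ⟨e0, e1⟩ := hr r le_rfl
  obtain ⟨l0, l1⟩ := h.h_Lam r
  have hle : UU v π r ≤ UU v π 0 := h.UU_anti (Nat.zero_le r)
  have hV : ∀ x ∈ (UU v π r).subgroupOf (UU v π 0),
      sUU h.inv π 0 x ∈ (UU v π r).subgroupOf (UU v π 0) := fun x hx =>
    sU_mem_UU h.inv π r x hx
  have hfi : ((UU v π r).subgroupOf (UU v π 0)).FiniteIndex := ⟨h.relIndex_UU_ne_zero r⟩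
  have hfin : Finite (↥(UU v π 0) ⧸ (UU v π r).subgroupOf (UU v π 0)) := inferInstance
  have k1 := h_mul_of_finiteIndex (sUU h.inv π 0) _ hV (h.sUU_iter 0)
  have c0 := mh0_congr (Subgroup.subgroupOfEquivOfLe hle)
    (σ := resSub (sUU h.inv π 0) _ hV) (τ := sUU h.inv π r) (fun _ => rfl) N
  have c1 := mh1_congr (Subgroup.subgroupOfEquivOfLe hle)
    (σ := resSub (sUU h.inv π 0) _ hV) (τ := sUU h.inv π r) (fun _ => rfl) N
  have hne : mh0 N (sUU h.inv π r) ≠ 0 := by rw [e0]; exact l1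
  have heq : mh1 N (sUU h.inv π r) = mh0 N (sUU h.inv π r) := by rw [e0, e1, l0]
  rw [← c0, ← c1, heq] at k1
  refine ⟨Nat.eq_of_mul_eq_mul_right (Nat.pos_of_ne_zero hne) k1, ?_⟩
  exact (isMulCycSES_sub (sUU h.inv π 0) _ hV).h0_ne_zero_mid (h.sUU_iter 0)
    (by rw [← c0]; exact hne) (mh0_ne_zero_of_finite _ _)

/-- the normalised valuation as a homomorphism -/
theorem CycLocal.exists_ord (h : CycLocal v σ N π) :
    ∃ ord : Eˣ →* Multiplicative ℤ, Function.Surjective ord ∧ (∀ u, ord (sU σ u) = ord u) ∧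
      ord.ker = UU v π 0 := by
  have hinj : Function.Injective fun n : ℤ => v π ^ n :=
    zpow_right_injective₀ h.vpi_pos h.pi_lt.ne
  choose n hn using fun u : Eˣ => h.disc (u : E) u.ne_zero
  have huniq : ∀ (u : Eˣ) (m : ℤ), v (u : E) = v π ^ m → n u = m := fun u m hm =>
    hinj (by simp only; rw [← hn u, hm])
  refine ⟨MonoidHom.mk' (fun u => Multiplicative.ofAdd (n u)) (fun a b => ?_), ?_, ?_, ?_⟩
  · rw [← ofAdd_add]
    congr 1
    apply huniq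
    rw [Units.val_mul, map_mul, hn a, hn b, zpow_add₀ h.vpi_pos.ne']
  · intro z
    refine ⟨(Units.mk0 π h.pi_ne) ^ (Multiplicative.toAdd z), ?_⟩
    change Multiplicative.ofAdd (n _) = z
    rw [huniq _ (Multiplicative.toAdd z) (by simp)]
    rfl
  · intro u
    change Multiplicative.ofAdd (n _) = Multiplicative.ofAdd (n u)
    rw [huniq (sU σ u) (n u) (by rw [coe_sU, h.inv, hn u])]
  · ext u
    rw [MonoidHom.mem_ker, mem_UU]
    change Multiplicative.ofAdd (n u) = 1 ↔ _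
    constructor
    · intro hu
      have h0 : n u = 0 := hu
      have h1 : v (u : E) = 1 := by rw [hn u, h0, zpow_zero]
      refine ⟨h1, ?_⟩
      rw [pow_zero]
      refine (v.map_sub _ _).trans (max_le h1.le ?_)
      rw [map_one]
    · rintro ⟨h1, -⟩
      rw [huniq u 0 (by rw [h1, zpow_zero])]
      rfl

/-- **the local norm index** -/
theorem CycLocal.mh0_units (h : CycLocal v σ N π) : mh0 N (sU σ) = N := by
  obtain ⟨ord, hsurj, hinv, hker⟩ := h.exists_ord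
  have key := h_mul_of_val h.N_pos.ne' (sU σ) h.sU_iter ord hsurj hinv
  have c0 := mh0_congr (MulEquiv.subgroupCongr hker) (σ := resSub (sU σ) ord.ker (fun x hx => by
        rw [MonoidHom.mem_ker] at hx ⊢; rw [hinv, hx])) (τ := sUU h.inv π 0)
    (fun _ => rfl) N
  have c1 := mh1_congr (MulEquiv.subgroupCongr hker) (σ := resSub (sU σ) ord.ker (fun x hx => by
        rw [MonoidHom.mem_ker] at hx ⊢; rw [hinv, hx])) (τ := sUU h.inv π 0)
    (fun _ => rfl) N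
  obtain ⟨z0, z1⟩ := h.mh_UU_zero
  rw [← c0, ← c1, mh1_units h.N_pos h.iter h.faithful, one_mul, ← z0, mul_comm _ N] at key
  exact Nat.eq_of_mul_eq_mul_right (Nat.pos_of_ne_zero z1) key

/-- elementwise form for prime `N`: any non-norm generates `kˣ / N Eˣ` -/
theorem CycLocal.exists_pow_mul_norm (h : CycLocal v σ N π) (hN : N.Prime) {y₀ : Eˣ}
    (hy₀ : sU σ y₀ = y₀) (hn : ∀ z : Eˣ, y₀ ≠ ∏ i ∈ range N, (sU σ)^[i] z) (y : Eˣ)
    (hy : sU σ y = y) : ∃ (b : ℕ) (z : Eˣ), y = y₀ ^ b * ∏ i ∈ range N, (sU σ)^[i] z := by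
  have : Fact N.Prime := ⟨hN⟩
  have hcard : Nat.card (↥(mD (sU σ)).ker ⧸ (mN N (sU σ)).range.subgroupOf (mD (sU σ)).ker) = N :=
    h.mh0_units
  have hne : (QuotientGroup.mk (⟨y₀, mem_ker_mD.2 hy₀⟩ : ↥(mD (sU σ)).ker) :
      ↥(mD (sU σ)).ker ⧸ (mN N (sU σ)).range.subgroupOf (mD (sU σ)).ker) ≠ 1 := by
    intro h1
    obtain ⟨z, hz⟩ := Subgroup.mem_subgroupOf.1 ((QuotientGroup.eq_one_iff _).1 h1)
    exact hn z hz.symm
  obtain ⟨b, hb⟩ := mem_powers_of_prime_card hcard hne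
    (g' := QuotientGroup.mk (⟨y, mem_ker_mD.2 hy⟩ : ↥(mD (sU σ)).ker))
  have hb' : (QuotientGroup.mk ((⟨y₀, mem_ker_mD.2 hy₀⟩ : ↥(mD (sU σ)).ker) ^ b) :
      ↥(mD (sU σ)).ker ⧸ (mN N (sU σ)).range.subgroupOf (mD (sU σ)).ker) =
      QuotientGroup.mk (⟨y, mem_ker_mD.2 hy⟩ : ↥(mD (sU σ)).ker) := hb
  obtain ⟨z, hz⟩ := Subgroup.mem_subgroupOf.1 (QuotientGroup.eq.1 hb')
  refine ⟨b, z, ?_⟩
  have hz' : ∏ i ∈ range N, (sU σ)^[i] z = (y₀ ^ b)⁻¹ * y := hz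
  rw [hz', mul_inv_cancel_left]

/-- there is a non-norm -/
theorem CycLocal.exists_not_norm (h : CycLocal v σ N π) (hN : 1 < N) :
    ∃ y₀ : Eˣ, sU σ y₀ = y₀ ∧ ∀ z : Eˣ, y₀ ≠ ∏ i ∈ range N, (sU σ)^[i] z := by
  by_contra hcon
  push Not at hcon
  have hle : (mD (sU σ)).ker ≤ (mN N (sU σ)).range := fun y hy => by
    obtain ⟨z, hz⟩ := hcon y (mem_ker_mD.1 hy)
    exact ⟨z, hz.symm⟩
  have h1 : mh0 N (sU σ) = 1 := Subgroup.relIndex_eq_one.2 hle
  rw [h.mh0_units] at h1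
  omega

end Fermat.Agent.CFT.NI
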