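import Fermat.Agent.CFT.HerbrandMul

/-!
# CFT / chain NI : the local norm index `[kˣ : N Eˣ] = N` for a cyclic extension `E/k` of degree `N`
of (henselian, NOT complete) discretely valued fields with finite residue field.

Intrinsic formulation: a field `E` with an automorphism `σ` of exact order `N`, `k = E^σ`,
a `σ`-invariant discrete valuation `v` on `E` with uniformiser `π`, finite residue field, and
"Hensel for `N`-th roots".  No completeness, no logarithm.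

  `h(Eˣ) = N · h(O^×)`, `h(O^×) = h(U^(r))`, `h(U^(r)) = h(Λ_r)` (NI-PAIR), `h(Λ_r) = 1` (NI-LAT),
  `H^1(Eˣ) = 1` (NI-H90).
Herbrand toolkit: `Fermat.Agent.CFT.HQ` (helper66): `mh0 mh1 h0 h1 resSub ...`.
-/

set_option autoImplicit false

namespace Fermat.Agent.CFT.NI

open Fermat.Agent.CFT.HQ

variable {E : Type} [Field E] {Γ₀ : Type} [LinearOrderedCommGroupWithZero Γ₀]

/-- `σ` on units -/
def sU (σ : E ≃+* E) : Eˣ →* Eˣ := Units.map (σ : E →* E)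

@[simp] lemma coe_sU (σ : E ≃+* E) (u : Eˣ) : ((sU σ u : Eˣ) : E) = σ u := rfl

/-- `σ` on the additive group -/
def sA (σ : E ≃+* E) : E →+ E := (σ : E →+* E).toAddMonoidHom

@[simp] lemma sA_apply (σ : E ≃+* E) (x : E) : sA σ x = σ x := rfl

/-- `Λ_r = {x | v x ≤ v π ^ r}` -/
def Lam (v : Valuation E Γ₀) (π : E) (r : ℕ) : AddSubgroup E where
  carrier := {x | v x ≤ v π ^ r}
  add_mem' {a b} ha hb := (v.map_add a b).trans (max_le ha hb)
  zero_mem' := by simp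
  neg_mem' {a} ha := by simpa [Valuation.map_neg] using ha

lemma mem_Lam {v : Valuation E Γ₀} {π : E} {r : ℕ} {x : E} : x ∈ Lam v π r ↔ v x ≤ v π ^ r :=
  Iff.rfl

/-- `U^(r) = {u | v u = 1, v (u - 1) ≤ v π ^ r}`; `U^(0) = O^×` (if `v π ≤ 1`) -/
def UU (v : Valuation E Γ₀) (π : E) (r : ℕ) : Subgroup Eˣ where
  carrier := {u | v (u : E) = 1 ∧ v ((u : E) - 1) ≤ v π ^ r}
  mul_mem' {a b} ha hb := by
    refine ⟨by simp [ha.1, hb.1], ?_⟩
    have : ((a * b : Eˣ) : E) - 1 = (a : E) * ((b : E) - 1) + ((a : E) - 1) := by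
      push_cast; ring
    rw [this]
    refine (v.map_add _ _).trans (max_le ?_ ha.2)
    rw [map_mul, ha.1, one_mul]; exact hb.2
  one_mem' := by simp
  inv_mem' {a} ha := by
    refine ⟨by simp [ha.1], ?_⟩
    have : ((a⁻¹ : Eˣ) : E) - 1 = -(((a⁻¹ : Eˣ) : E) * ((a : E) - 1)) := by
      have h1 : ((a⁻¹ : Eˣ) : E) * (a : E) = 1 := by simp
      linear_combination h1
    rw [this, Valuation.map_neg, map_mul]
    have h2 : v ((a⁻¹ : Eˣ) : E) = 1 := by simp [ha.1]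
    rw [h2, one_mul]; exact ha.2

lemma mem_UU {v : Valuation E Γ₀} {π : E} {r : ℕ} {u : Eˣ} :
    u ∈ UU v π r ↔ v (u : E) = 1 ∧ v ((u : E) - 1) ≤ v π ^ r := Iff.rfl

/-- the hypotheses of the norm index theorem -/
structure CycLocal (v : Valuation E Γ₀) (σ : E ≃+* E) (N : ℕ) (π : E) : Prop where
  N_pos : 0 < N
  N_ne : (N : E) ≠ 0
  iter : ∀ x, σ^[N] x = x
  faithful : ∀ i, 0 < i → i < N → ∃ x, σ^[i] x ≠ x
  inv : ∀ x, v (σ x) = v x
  pi_ne : π ≠ 0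
  pi_lt : v π < 1
  disc : ∀ x, x ≠ 0 → ∃ n : ℤ, v x = v π ^ n
  fin : ∃ T : Finset E, ∀ x, v x ≤ 1 → ∃ t ∈ T, v (x - t) < 1
  hensel : ∃ r₀ : ℕ, ∀ r, r₀ ≤ r → ∀ x : E, v (x - 1) ≤ v π ^ r * v (N : E) →
    ∃ y : E, v (y - 1) ≤ v π ^ r ∧ y ^ N = x

lemma sU_mem_UU {v : Valuation E Γ₀} {σ : E ≃+* E} (hinv : ∀ x, v (σ x) = v x) (π : E) (r : ℕ) :
    ∀ u ∈ UU v π r, sU σ u ∈ UU v π r := by
  intro u hu
  refine ⟨by rw [coe_sU, hinv]; exact hu.1, ?_⟩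
  have : ((sU σ u : Eˣ) : E) - 1 = σ ((u : E) - 1) := by simp
  rw [this, hinv]; exact hu.2

/-- `σ` on `U^(r)` -/
def sUU {v : Valuation E Γ₀} {σ : E ≃+* E} (hinv : ∀ x, v (σ x) = v x) (π : E) (r : ℕ) :
    ↥(UU v π r) →* ↥(UU v π r) := resSub (sU σ) (UU v π r) (sU_mem_UU hinv π r)

/-- `σ` on `Λ_r` -/
def sLam {v : Valuation E Γ₀} {σ : E ≃+* E} (hinv : ∀ x, v (σ x) = v x) (π : E) (r : ℕ) :
    ↥(Lam v π r) →+ ↥(Lam v π r) :=
  ((sA σ).comp (Lam v π r).subtype).codRestrict (Lam v π r) (fun x => by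
    change v (σ x) ≤ _
    rw [hinv]; exact x.2)

@[simp] lemma coe_sLam {v : Valuation E Γ₀} {σ : E ≃+* E} (hinv : ∀ x, v (σ x) = v x) (π : E)
    (r : ℕ) (x : ↥(Lam v π r)) : ((sLam hinv π r x : ↥(Lam v π r)) : E) = σ x := rfl

end Fermat.Agent.CFT.NI
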