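import Fermat.Agent.CFT.NI.Defs

/-!
# WP NI-H90 : Hilbert 90 and the normal basis for a field with an automorphism of exact order `N`.

Via Mathlib: `K = FixedPoints.subfield (Subgroup.zpowers σ) E`, `E/K` is Galois of degree `N`,
`Fin N ≃ Gal(E/K)`, `i ↦ σ^i`; then `groupCohomology.exists_div_of_norm_eq_one`,
`IsGalois.normalBasis` and the dual basis for the trace form.
-/

set_option autoImplicit false

namespace Fermat.Agent.CFT.NI

open Fermat.Agent.CFT.HQ Finset

variable {E : Type} [Field E]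

namespace H90c

/-- the fixed field of `σ` -/
abbrev fixF (σ : E ≃+* E) : Subfield E :=
  FixedPoints.subfield (Subgroup.zpowers (σ : RingAut E)) E

lemma mem_fixF {σ : E ≃+* E} {x : E} : x ∈ fixF σ ↔ σ x = x := by
  constructor
  · intro h
    exact h ⟨σ, Subgroup.mem_zpowers _⟩
  · intro h m
    have : Subgroup.zpowers (σ : RingAut E) ≤ MulAction.stabilizer (RingAut E) x :=
      Subgroup.zpowers_le.2 h
    exact this m.2

/-- `σ` as an automorphism over its fixed field -/
def sAlg (σ : E ≃+* E) : E ≃ₐ[fixF σ] E :=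
  AlgEquiv.ofRingEquiv (f := σ) (fun k => mem_fixF.1 k.2)

lemma sAlg_pow_apply (σ : E ≃+* E) (i : ℕ) (x : E) : (sAlg σ ^ i) x = σ^[i] x := by
  rw [AlgEquiv.coe_pow]; rfl

section
variable {σ : E ≃+* E} {N : ℕ} (hN : 0 < N) (hiter : ∀ x, σ^[N] x = x)
  (hf : ∀ i, 0 < i → i < N → ∃ x, σ^[i] x ≠ x)
include hN hiter hf

lemma orderOf_eq : orderOf (σ : RingAut E) = N := by
  rw [orderOf_eq_iff hN]
  refine ⟨RingEquiv.ext fun x => ?_, fun m hm hm0 h => ?_⟩
  · rw [RingAut.coe_pow]; exact hiter x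
  · obtain ⟨x, hx⟩ := hf m hm0 hm
    apply hx
    rw [← RingAut.coe_pow, h]; rfl

lemma finite_zpowers : Finite (Subgroup.zpowers (σ : RingAut E)) :=
  Nat.finite_of_card_ne_zero (by rw [Nat.card_zpowers, orderOf_eq hN hiter hf]; exact hN.ne')

lemma finrank_eq : Module.finrank (fixF σ) E = N := by
  have := finite_zpowers hN hiter hf
  have := Fintype.ofFinite (Subgroup.zpowers (σ : RingAut E))
  rw [FixedPoints.finrank_eq_card, Fintype.card_eq_nat_card, Nat.card_zpowers,
    orderOf_eq hN hiter hf]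

lemma finiteDimensional : FiniteDimensional (fixF σ) E := by
  have := finite_zpowers hN hiter hf
  infer_instance

lemma isGalois : IsGalois (fixF σ) E := by
  have := finite_zpowers hN hiter hf
  infer_instance

lemma pow_bijective : Function.Bijective (fun i : Fin N => sAlg σ ^ (i : ℕ)) := by
  have := finiteDimensional hN hiter hf
  have := isGalois hN hiter hf
  rw [Fintype.bijective_iff_injective_and_card]
  constructor
  · -- injectivity
    have key : ∀ i j : ℕ, i < j → j < N → sAlg σ ^ i ≠ sAlg σ ^ j := by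
      intro i j hij hj h
      obtain ⟨x, hx⟩ := hf (j - i) (by omega) (by omega)
      apply hx
      have h1 := sAlg_pow_apply σ j x
      have h2 := sAlg_pow_apply σ i (σ^[j - i] x)
      rw [← Function.iterate_add_apply, Nat.add_sub_cancel' hij.le, ← h1, ← h] at h2
      exact (sAlg σ ^ i).injective h2
    intro i j hij
    rcases lt_trichotomy (i : ℕ) j with h | h | h
    · exact absurd hij (key i j h j.2)
    · exact Fin.ext h
    · exact absurd hij.symm (key j i h i.2)
  · rw [Fintype.card_fin, Fintype.card_eq_nat_card, IsGalois.card_aut_eq_finrank,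
      finrank_eq hN hiter hf]

/-- `Fin N ≃ Gal(E / E^σ)` -/
noncomputable def eqv : Fin N ≃ (E ≃ₐ[fixF σ] E) := Equiv.ofBijective _ (pow_bijective hN hiter hf)

lemma eqv_apply (i : Fin N) (x : E) : eqv hN hiter hf i x = σ^[(i : ℕ)] x := sAlg_pow_apply σ i x

lemma trace_eq (x : E) :
    ((Algebra.trace (fixF σ) E x : fixF σ) : E) = ∑ j ∈ range N, σ^[j] x := by
  have := finiteDimensional hN hiter hf
  have := isGalois hN hiter hf
  have h := trace_eq_sum_automorphisms (K := fixF σ) x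
  rw [← Equiv.sum_comp (eqv hN hiter hf)] at h
  simp only [eqv_apply] at h
  rw [Fin.sum_univ_eq_sum_range (fun j => σ^[j] x)] at h
  exact h

lemma norm_eq (x : E) :
    ((Algebra.norm (fixF σ) x : fixF σ) : E) = ∏ j ∈ range N, σ^[j] x := by
  have := finiteDimensional hN hiter hf
  have := isGalois hN hiter hf
  have h := Algebra.norm_eq_prod_automorphisms (K := fixF σ) x
  rw [← Equiv.prod_comp (eqv hN hiter hf)] at h
  simp only [eqv_apply] at h
  rw [Fin.prod_univ_eq_prod_range (fun j => σ^[j] x)] at h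
  exact h


/-- the normal basis, indexed by `Fin N` -/
lemma exists_basis : ∃ b : Module.Basis (Fin N) (fixF σ) E, ∃ θ θ' : E,
    (∀ i, b i = σ^[(i : ℕ)] θ) ∧
    ∀ (x : E) (i : Fin N), ((b.repr x i : fixF σ) : E) = ∑ j ∈ range N, σ^[j] (x * σ^[(i : ℕ)] θ') := by
  classical
  have := finiteDimensional hN hiter hf
  have := isGalois hN hiter hf
  let nb := IsGalois.normalBasis (fixF σ) E
  let B := Algebra.traceForm (fixF σ) E
  have hB : B.Nondegenerate := traceForm_nondegenerate (fixF σ) E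
  have hBs : B.IsSymm := Algebra.traceForm_isSymm (fixF σ)
  let db := B.dualBasis hB nb
  have hdb : ∀ τ, db τ = τ (db 1) := by
    intro τ
    refine LinearMap.ker_eq_bot.mp hB.ker_eq_bot (nb.ext fun ρ => ?_)
    rw [LinearMap.BilinForm.apply_dualBasis_left]
    have e1 : nb ρ = τ (nb (τ⁻¹ * ρ)) := by
      rw [IsGalois.normalBasis_apply, IsGalois.normalBasis_apply (τ⁻¹ * ρ), ← AlgEquiv.mul_apply,
        mul_inv_cancel_left]
    rw [e1, Algebra.traceForm_apply, ← map_mul, Algebra.trace_eq_of_algEquiv,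
      ← Algebra.traceForm_apply, LinearMap.BilinForm.apply_dualBasis_left]
    simp only [inv_mul_eq_one, eq_comm]
  refine ⟨nb.reindex (eqv hN hiter hf).symm, nb 1, db 1, fun i => ?_, fun x i => ?_⟩
  · rw [Module.Basis.reindex_apply, Equiv.symm_symm, IsGalois.normalBasis_apply, eqv_apply]
  · rw [Module.Basis.repr_reindex_apply, Equiv.symm_symm, ← trace_eq hN hiter hf,
      ← eqv_apply hN hiter hf, ← hdb, ← Algebra.traceForm_apply]
    have : nb = B.dualBasis hB db := (LinearMap.BilinForm.dualBasis_dualBasis hB hBs nb).symm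
    conv_lhs => rw [this]
    rw [LinearMap.BilinForm.dualBasis_repr_apply]

end

end H90c

open H90c

lemma coe_sU_iterate (σ : E ≃+* E) (i : ℕ) (z : Eˣ) : (((sU σ)^[i] z : Eˣ) : E) = σ^[i] z := by
  induction i generalizing z with
  | zero => rfl
  | succ i ih => rw [Function.iterate_succ_apply, ih, Function.iterate_succ_apply, coe_sU]

theorem hilbert90_cyc {σ : E ≃+* E} {N : ℕ} (hN : 0 < N) (hiter : ∀ x, σ^[N] x = x)
    (hf : ∀ i, 0 < i → i < N → ∃ x, σ^[i] x ≠ x) (z : Eˣ)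
    (hz : ∏ i ∈ range N, (sU σ)^[i] z = 1) : ∃ y : Eˣ, z = sU σ y / y := by
  have := finiteDimensional hN hiter hf
  have := isGalois hN hiter hf
  have hgen : ∀ τ : E ≃ₐ[fixF σ] E, τ ∈ Subgroup.zpowers (sAlg σ) := by
    intro τ
    obtain ⟨i, rfl⟩ := (pow_bijective hN hiter hf).2 τ
    exact Subgroup.npow_mem_zpowers _ _
  have : IsCyclic (E ≃ₐ[fixF σ] E) := ⟨sAlg σ, hgen⟩
  have hnorm : Algebra.norm (fixF σ) (z : E) = 1 := by
    apply Subtype.ext
    rw [norm_eq hN hiter hf]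
    have := congrArg (Units.val) hz
    rw [Units.coe_prod] at this
    simp only [coe_sU_iterate, Units.val_one] at this
    exact this
  obtain ⟨y, hy⟩ := groupCohomology.exists_div_of_norm_eq_one hgen hnorm
  refine ⟨y⁻¹, Units.ext ?_⟩
  have h1 : sAlg σ (y : E) = σ y := rfl
  rw [h1] at hy
  rw [← hy, map_inv, Units.val_div_eq_div_val, Units.val_inv_eq_inv_val, Units.val_inv_eq_inv_val,
    coe_sU]
  have hy0 : (y : E) ≠ 0 := y.ne_zero
  have hy1 : σ (y : E) ≠ 0 := (map_ne_zero σ).2 hy0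
  field_simp

theorem mh1_units {σ : E ≃+* E} {N : ℕ} (hN : 0 < N) (hiter : ∀ x, σ^[N] x = x)
    (hf : ∀ i, 0 < i → i < N → ∃ x, σ^[i] x ≠ x) : mh1 N (sU σ) = 1 := by
  rw [mh1_def, Subgroup.relIndex_eq_one]
  intro z hz
  obtain ⟨y, hy⟩ := hilbert90_cyc hN hiter hf z hz
  exact ⟨y, hy.symm⟩

/-- normal basis: every `x` is uniquely `∑ a i * σ^i θ` with `σ`-fixed `a i` -/
theorem exists_normal_basis {σ : E ≃+* E} {N : ℕ} (hN : 0 < N) (hiter : ∀ x, σ^[N] x = x)
    (hf : ∀ i, 0 < i → i < N → ∃ x, σ^[i] x ≠ x) :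
    ∃ θ : E, ∀ x : E, ∃! a : Fin N → E, (∀ i, σ (a i) = a i) ∧ x = ∑ i, a i * σ^[(i : ℕ)] θ := by
  obtain ⟨b, θ, θ', hb, -⟩ := exists_basis hN hiter hf
  refine ⟨θ, fun x => ⟨fun i => ((b.repr x i : fixF σ) : E), ⟨fun i => mem_fixF.1 (b.repr x i).2, ?_⟩,
    ?_⟩⟩
  · conv_lhs => rw [← b.sum_repr x]
    exact Finset.sum_congr rfl fun i _ => by rw [hb i]; rfl
  · rintro a ⟨ha, hx⟩
    funext i
    have : x = ∑ i, (⟨a i, mem_fixF.2 (ha i)⟩ : fixF σ) • b i := by
      rw [hx]
      exact Finset.sum_congr rfl fun i _ => by rw [hb i]; rfl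
    rw [this, b.repr_sum_self]

/-- dual basis for the trace form: the coordinates are traces -/
theorem exists_normal_basis_dual {σ : E ≃+* E} {N : ℕ} (hN : 0 < N) (hiter : ∀ x, σ^[N] x = x)
    (hf : ∀ i, 0 < i → i < N → ∃ x, σ^[i] x ≠ x) :
    ∃ θ θ' : E, θ ≠ 0 ∧ (∀ a : Fin N → E, (∀ i, σ (a i) = a i) →
        ∑ i, a i * σ^[(i : ℕ)] θ = 0 → a = 0) ∧
      ∀ x : E, x = ∑ i : Fin N, (∑ j ∈ range N, σ^[j] (x * σ^[(i : ℕ)] θ')) * σ^[(i : ℕ)] θ := by
  obtain ⟨b, θ, θ', hb, hrepr⟩ := exists_basis hN hiter hf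
  refine ⟨θ, θ', ?_, fun a ha h0 => ?_, fun x => ?_⟩
  · have := b.ne_zero ⟨0, hN⟩
    rwa [hb] at this
  · have h1 : ∑ i, (⟨a i, mem_fixF.2 (ha i)⟩ : fixF σ) • b i = 0 := by
      rw [← h0]
      exact Finset.sum_congr rfl fun i _ => by rw [hb i]; rfl
    funext i
    have := Fintype.linearIndependent_iff.1 b.linearIndependent _ h1 i
    exact congrArg Subtype.val this
  · conv_lhs => rw [← b.sum_repr x]
    exact Finset.sum_congr rfl fun i _ => by rw [hb i, ← hrepr x i]; rfl

end Fermat.Agent.CFT.NI
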