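import Fermat.Agent.CFT.NI.H90c

/-!
# WP NI-LAT : `h(Λ_r) = 1`.

`θ, θ'` from `exists_normal_basis_dual`; `O_k = {a | σ a = a, v a ≤ 1}`;
`Λ' = {∑ a_i σ^i θ₁ | a_i ∈ O_k}` with `θ₁ = π₀^m θ` scaled by a `σ`-fixed element `π₀` with
`v π₀ < 1` (e.g. `π₀ = ∏_{i<N} σ^i π`) so that `Λ' ≤ Λ_r`.
`Λ_{r'} ≤ Λ'` for `r'` large: the coordinates of `x` are `Tr (x σ^i θ₁')`, and `v (Tr y) ≤ v y`.
`Λ_r / Λ_{r'}` is finite (`Λ_j / Λ_{j+1}` is covered by `π^j T`), so `Λ'` has finite index in `Λ_r`.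
`Λ' ≃ (ZMod N → O_k)` with the shift: `h0_of_induced`, `h1_of_induced`;
`IsCycSES.h_mul_of_finite_right` + `h?_ne_zero_mid`.
-/

set_option autoImplicit false

namespace Fermat.Agent.CFT.NI

open Fermat.Agent.CFT.HQ

variable {E : Type} [Field E] {Γ₀ : Type} [LinearOrderedCommGroupWithZero Γ₀]
  {v : Valuation E Γ₀} {σ : E ≃+* E} {N : ℕ} {π : E}

/-- finitely many translates of `H` cover `K` ⇒ finite relative index -/
theorem relIndex_ne_zero_of_finite_cover {A : Type*} [AddCommGroup A] (H K : AddSubgroup A)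
    (F : Finset A) (hF : ∀ x ∈ K, ∃ f ∈ F, x - f ∈ H) : H.relIndex K ≠ 0 := by
  classical
  let F' : Type _ := {f : A // f ∈ F ∧ ∃ x ∈ K, x - f ∈ H}
  have hfin : Finite F' :=
    Finite.of_injective (fun f : F' => (⟨f.1, f.2.1⟩ : F)) (fun a b hab => by
      apply Subtype.ext
      exact congrArg (fun z : F => (z : A)) hab)
  let ψ : F' → (↥K ⧸ H.addSubgroupOf K) := fun f =>
    QuotientAddGroup.mk (⟨f.2.2.choose, f.2.2.choose_spec.1⟩ : ↥K)
  have hsurj : Function.Surjective ψ := by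
    intro q
    induction q using QuotientAddGroup.induction_on with
    | H x =>
      obtain ⟨f, hfF, hxf⟩ := hF x x.2
      let f' : F' := ⟨f, hfF, x, x.2, hxf⟩
      refine ⟨f', ?_⟩
      rw [QuotientAddGroup.eq, AddSubgroup.mem_addSubgroupOf]
      have h1 := f'.2.2.choose_spec.2
      have : ((-(⟨f'.2.2.choose, f'.2.2.choose_spec.1⟩ : ↥K) + x : ↥K) : A) =
          (x - f) - (f'.2.2.choose - f) := by
        push_cast
        abel
      rw [this]
      exact H.sub_mem hxf h1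
  have : Finite (↥K ⧸ H.addSubgroupOf K) := Finite.of_surjective ψ hsurj
  exact AddSubgroup.index_ne_zero_of_finite

theorem CycLocal.vpi_pos (h : CycLocal v σ N π) : 0 < v π :=
  zero_lt_iff.2 ((Valuation.ne_zero_iff v).2 h.pi_ne)

theorem CycLocal.le_vpi_of_lt_one (h : CycLocal v σ N π) {y : E} (hy : v y < 1) : v y ≤ v π := by
  by_cases hy0 : y = 0
  · rw [hy0, map_zero]; exact zero_le
  obtain ⟨n, hn⟩ := h.disc y hy0
  rw [hn] at hy ⊢
  have hn0 : 0 < n := (zpow_lt_one_iff_right_of_lt_one₀ h.vpi_pos h.pi_lt).1 hy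
  calc v π ^ n ≤ v π ^ (1 : ℤ) :=
        zpow_le_zpow_right_of_le_one₀ h.vpi_pos h.pi_lt.le (by omega)
    _ = v π := zpow_one _

theorem CycLocal.Lam_anti (h : CycLocal v σ N π) {r s : ℕ} (hrs : r ≤ s) :
    Lam v π s ≤ Lam v π r := fun _ hx =>
  le_trans hx (pow_le_pow_right_of_le_one' h.pi_lt.le hrs)

theorem CycLocal.relIndex_Lam_succ_ne_zero (h : CycLocal v σ N π) (j : ℕ) :
    (Lam v π (j + 1)).relIndex (Lam v π j) ≠ 0 := by
  classical
  obtain ⟨T, hT⟩ := h.fin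
  refine relIndex_ne_zero_of_finite_cover _ _ (T.image fun t => π ^ j * t) fun x hx => ?_
  have hpj : v (π ^ j) ≠ 0 := (Valuation.ne_zero_iff v).2 (pow_ne_zero j h.pi_ne)
  have hx1 : v (x / π ^ j) ≤ 1 := by
    rw [map_div₀, map_pow]
    exact div_le_one_of_le₀ hx zero_le
  obtain ⟨t, ht, hxt⟩ := hT _ hx1
  refine ⟨π ^ j * t, Finset.mem_image_of_mem _ ht, ?_⟩
  have e : x - π ^ j * t = π ^ j * (x / π ^ j - t) := by
    field_simp [h.pi_ne]
  rw [mem_Lam, e, map_mul, map_pow, pow_succ]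
  exact mul_le_mul_right (h.le_vpi_of_lt_one hxt) _

/-- `Λ_s` has finite index in `Λ_r` -/
theorem CycLocal.relIndex_Lam_ne_zero (h : CycLocal v σ N π) (r s : ℕ) :
    (Lam v π s).relIndex (Lam v π r) ≠ 0 := by
  by_cases hsr : s ≤ r
  · rw [AddSubgroup.relIndex_eq_one.2 (h.Lam_anti hsr)]
    exact one_ne_zero
  · obtain ⟨d, rfl⟩ := Nat.exists_eq_add_of_le (not_le.1 hsr).le
    clear hsr
    induction d with
    | zero => rw [add_zero, AddSubgroup.relIndex_self]; exact one_ne_zero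
    | succ d ih =>
      rw [← AddSubgroup.relIndex_mul_relIndex (Lam v π (r + (d + 1))) (Lam v π (r + d)) (Lam v π r)
        (h.Lam_anti (by omega)) (h.Lam_anti (by omega))]
      exact mul_ne_zero (h.relIndex_Lam_succ_ne_zero (r + d)) ih

/-! ### the normal basis lattice -/

open Finset

/-- `O_k = {a | σ a = a, v a ≤ 1}` -/
def Ok (v : Valuation E Γ₀) (σ : E ≃+* E) : AddSubgroup E where
  carrier := {a | σ a = a ∧ v a ≤ 1}
  add_mem' ha hb := ⟨by rw [map_add, ha.1, hb.1], (v.map_add _ _).trans (max_le ha.2 hb.2)⟩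
  zero_mem' := ⟨map_zero σ, by simp⟩
  neg_mem' ha := ⟨by rw [map_neg, ha.1], by rw [Valuation.map_neg]; exact ha.2⟩

theorem val_iterate (hinv : ∀ x, v (σ x) = v x) (i : ℕ) (x : E) : v (σ^[i] x) = v x := by
  induction i with
  | zero => rfl
  | succ k ih => rw [Function.iterate_succ_apply', hinv, ih]

theorem sum_succ_eq_of_periodic {M : Type*} [AddCommGroup M] (g : ℕ → M) (n : ℕ)
    (hg : g n = g 0) : ∑ k ∈ range n, g (k + 1) = ∑ k ∈ range n, g k := by
  have h1 := Finset.sum_range_succ g n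
  have h2 := Finset.sum_range_succ' g n
  rw [h1, hg] at h2
  exact (add_right_cancel h2).symm

theorem prod_succ_eq_of_periodic {M : Type*} [CommGroupWithZero M] (g : ℕ → M) (n : ℕ)
    (hg : g n = g 0) (h0 : g 0 ≠ 0) : ∏ k ∈ range n, g (k + 1) = ∏ k ∈ range n, g k := by
  have h1 := Finset.prod_range_succ g n
  have h2 := Finset.prod_range_succ' g n
  rw [h1, hg] at h2
  exact (mul_right_cancel₀ h0 h2).symm

/-- the trace is fixed -/
theorem map_sum_iterate (hiter : ∀ x, σ^[N] x = x) (y : E) :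
    σ (∑ j ∈ range N, σ^[j] y) = ∑ j ∈ range N, σ^[j] y := by
  rw [map_sum]
  have : ∀ j ∈ range N, σ (σ^[j] y) = σ^[j + 1] y := fun j _ =>
    (Function.iterate_succ_apply' σ j y).symm
  rw [Finset.sum_congr rfl this]
  exact sum_succ_eq_of_periodic (fun j => σ^[j] y) N (hiter y)

/-- `φ ↦ ∑_k φ(-k) σ^k θ₁` -/
noncomputable def latMap (v : Valuation E Γ₀) (σ : E ≃+* E) (N : ℕ) (θ₁ : E) :
    (ZMod N → ↥(Ok v σ)) →+ E where
  toFun φ := ∑ k ∈ range N, (φ (-(k : ZMod N)) : E) * σ^[k] θ₁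
  map_zero' := by simp
  map_add' φ ψ := by simp [add_mul, Finset.sum_add_distrib]

theorem latMap_apply (θ₁ : E) (φ : ZMod N → ↥(Ok v σ)) :
    latMap v σ N θ₁ φ = ∑ k ∈ range N, (φ (-(k : ZMod N)) : E) * σ^[k] θ₁ := rfl

theorem val_latMap_le (hinv : ∀ x, v (σ x) = v x) (θ₁ : E) (φ : ZMod N → ↥(Ok v σ)) :
    v (latMap v σ N θ₁ φ) ≤ v θ₁ := by
  rw [latMap_apply]
  refine v.map_sum_le fun k _ => ?_
  rw [map_mul, val_iterate hinv]
  exact mul_le_of_le_one_left' (φ _).2.2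

theorem map_latMap (hiter : ∀ x, σ^[N] x = x) (θ₁ : E) (φ : ZMod N → ↥(Ok v σ)) :
    σ (latMap v σ N θ₁ φ) = latMap v σ N θ₁ (shift N ↥(Ok v σ) φ) := by
  rw [latMap_apply, latMap_apply, map_sum]
  have h1 : ∀ k ∈ range N, σ ((φ (-(k : ZMod N)) : E) * σ^[k] θ₁) =
      (fun k : ℕ => (φ (-(k : ZMod N) + 1) : E) * σ^[k] θ₁) (k + 1) := fun k _ => by
    simp only
    rw [map_mul, (φ _).2.1, ← Function.iterate_succ_apply' σ k θ₁]
    congr 3
    push_cast
    ring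
  rw [Finset.sum_congr rfl h1]
  refine sum_succ_eq_of_periodic (fun k : ℕ => (φ (-(k : ZMod N) + 1) : E) * σ^[k] θ₁) N ?_
  simp [hiter θ₁]

theorem iterate_mul_fixed {c : E} (hc : σ c = c) (k : ℕ) (x : E) :
    σ^[k] (c * x) = c * σ^[k] x := by
  rw [iterate_map_mul, Function.iterate_fixed hc]

theorem latMap_injective [NeZero N] {θ c : E} (hc0 : c ≠ 0) (hc : σ c = c)
    (hind : ∀ a : Fin N → E, (∀ i, σ (a i) = a i) → ∑ i, a i * σ^[(i : ℕ)] θ = 0 → a = 0) :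
    Function.Injective (latMap v σ N (c * θ)) := by
  rw [injective_iff_map_eq_zero]
  intro φ hφ
  rw [latMap_apply, Finset.sum_range] at hφ
  have h1 := hind (fun i : Fin N => (φ (-((i : ℕ) : ZMod N)) : E) * c)
    (fun i => by rw [map_mul, (φ _).2.1, hc]) (by
      rw [← hφ]
      refine Finset.sum_congr rfl fun i _ => ?_
      rw [iterate_mul_fixed hc]
      ring)
  funext j
  have h2 := congrFun h1 ⟨(-j).val, ZMod.val_lt _⟩
  simp only [ZMod.natCast_val, ZMod.cast_id', id_eq, neg_neg, Pi.zero_apply, mul_eq_zero, hc0,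
    or_false] at h2
  exact Subtype.ext h2

theorem exists_latMap_eq [NeZero N] (hinv : ∀ x, v (σ x) = v x) (hiter : ∀ x, σ^[N] x = x)
    {θ θ' c : E} (hc0 : c ≠ 0) (hc : σ c = c)
    (hdual : ∀ x : E, x = ∑ i : Fin N, (∑ j ∈ range N, σ^[j] (x * σ^[(i : ℕ)] θ')) *
      σ^[(i : ℕ)] θ) {x : E} (hx : v x * v θ' * (v c)⁻¹ ≤ 1) :
    ∃ φ, latMap v σ N (c * θ) φ = x := by
  have hcinv : σ c⁻¹ = c⁻¹ := by rw [map_inv₀, hc]
  refine ⟨fun j => ⟨(∑ l ∈ range N, σ^[l] (x * σ^[(-j).val] θ')) * c⁻¹, ?_, ?_⟩, ?_⟩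
  · rw [map_mul, map_sum_iterate hiter, hcinv]
  · rw [map_mul, map_inv₀]
    refine le_trans (mul_le_mul_left (v.map_sum_le (g := v x * v θ') fun l _ => ?_) _) hx
    rw [val_iterate hinv, map_mul, val_iterate hinv]
  · rw [latMap_apply, Finset.sum_range]
    conv_rhs => rw [hdual x]
    refine Finset.sum_congr rfl fun i _ => ?_
    simp only [neg_neg]
    rw [ZMod.val_natCast_of_lt i.2, iterate_mul_fixed hc]
    field_simp

theorem coe_sLam_iterate (hinv : ∀ x, v (σ x) = v x) (r i : ℕ) (x : ↥(Lam v π r)) :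
    (((sLam hinv π r)^[i] x : ↥(Lam v π r)) : E) = σ^[i] x := by
  induction i with
  | zero => rfl
  | succ k ih => rw [Function.iterate_succ_apply', Function.iterate_succ_apply', coe_sLam, ih]

/-- a `σ`-fixed element of small valuation -/
theorem CycLocal.exists_fixed_small (h : CycLocal v σ N π) (m : ℕ) :
    ∃ c : E, c ≠ 0 ∧ σ c = c ∧ v c = v π ^ (m * N) := by
  refine ⟨∏ i ∈ range N, σ^[i] (π ^ m), ?_, ?_, ?_⟩
  · refine Finset.prod_ne_zero_iff.2 fun i _ => ?_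
    rw [← Valuation.ne_zero_iff v, val_iterate h.inv, Valuation.ne_zero_iff]
    exact pow_ne_zero m h.pi_ne
  · rw [map_prod]
    have : ∀ j ∈ range N, σ (σ^[j] (π ^ m)) = σ^[j + 1] (π ^ m) := fun j _ =>
      (Function.iterate_succ_apply' σ j _).symm
    rw [Finset.prod_congr rfl this]
    exact prod_succ_eq_of_periodic (fun j => σ^[j] (π ^ m)) N (h.iter _)
      (pow_ne_zero m h.pi_ne)
  · rw [map_prod, Finset.prod_congr rfl fun i _ => val_iterate h.inv i (π ^ m), Finset.prod_const,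
      Finset.card_range, map_pow, ← pow_mul]

theorem CycLocal.h_Lam (h : CycLocal v σ N π) (r : ℕ) :
    h0 N (sLam h.inv π r) = h1 N (sLam h.inv π r) ∧ h0 N (sLam h.inv π r) ≠ 0 := by
  classical
  have : NeZero N := ⟨h.N_pos.ne'⟩
  obtain ⟨θ, θ', hθ0, hind, hdual⟩ := exists_normal_basis_dual h.N_pos h.iter h.faithful
  obtain ⟨n, hn⟩ := h.disc θ hθ0
  obtain ⟨c, hc0, hcσ, hvc⟩ := h.exists_fixed_small (r - n).toNat
  set m : ℕ := (r - n).toNat with hm
  have hmN : m ≤ m * N := Nat.le_mul_of_pos_right m h.N_pos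
  -- `c θ ∈ Λ_r`
  have hθ₁ : v (c * θ) ≤ v π ^ r := by
    rw [map_mul, hvc, hn, ← zpow_natCast, ← zpow_natCast, ← zpow_add₀ h.vpi_pos.ne']
    refine zpow_le_zpow_right_of_le_one₀ h.vpi_pos h.pi_lt.le ?_
    have : (r : ℤ) - n ≤ m := Int.self_le_toNat _
    have : (m : ℤ) ≤ ((m * N : ℕ) : ℤ) := by exact_mod_cast hmN
    omega
  -- `Λ_{r'}` is contained in the lattice
  obtain ⟨r', hr'⟩ : ∃ r' : ℕ, ∀ x : E, v x ≤ v π ^ r' → v x * v θ' * (v c)⁻¹ ≤ 1 := by
    by_cases hθ' : θ' = 0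
    · exact ⟨0, fun x _ => by rw [hθ', map_zero, mul_zero, zero_mul]; exact zero_le_one⟩
    · obtain ⟨n', hn'⟩ := h.disc θ' hθ'
      refine ⟨(((m * N : ℕ) : ℤ) - n').toNat, fun x hx => ?_⟩
      refine le_trans (mul_le_mul_left (mul_le_mul_left hx _) _) ?_
      rw [hvc, hn', ← zpow_natCast, ← zpow_natCast, ← zpow_neg, ← zpow_add₀ h.vpi_pos.ne',
        ← zpow_add₀ h.vpi_pos.ne']
      refine (zpow_le_one_iff_right_of_lt_one₀ h.vpi_pos h.pi_lt).2 ?_
      have : ((m * N : ℕ) : ℤ) - n' ≤ ((((m * N : ℕ) : ℤ) - n').toNat : ℤ) := Int.self_le_toNat _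
      omega
  let ι : (ZMod N → ↥(Ok v σ)) →+ ↥(Lam v π r) :=
    (latMap v σ N (c * θ)).codRestrict (Lam v π r) fun φ =>
      (val_latMap_le h.inv (c * θ) φ).trans hθ₁
  have hισ : ∀ b, sLam h.inv π r (ι b) = ι (shift N ↥(Ok v σ) b) := fun b =>
    Subtype.ext (map_latMap h.iter (c * θ) b)
  have hle : ι.range ≤ ι.range.comap (sLam h.inv π r) := by
    rintro _ ⟨b, rfl⟩
    exact ⟨_, (hισ b).symm⟩
  have hses : IsCycSES ι (QuotientAddGroup.mk' ι.range) (sLam h.inv π r) (shift N ↥(Ok v σ))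
      (QuotientAddGroup.map ι.range ι.range (sLam h.inv π r) hle) :=
    { inj := fun a b hab => latMap_injective hc0 hcσ hind (congrArg Subtype.val hab)
      surj := QuotientAddGroup.mk'_surjective _
      exact := (QuotientAddGroup.ker_mk' _).symm
      σι := hισ
      σπ := fun _ => rfl }
  have hσ : ∀ x, (sLam h.inv π r)^[N] x = x := fun x =>
    Subtype.ext (by rw [coe_sLam_iterate, h.iter])
  have hsub : (Lam v π r').addSubgroupOf (Lam v π r) ≤ ι.range := by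
    intro x hx
    obtain ⟨φ, hφ⟩ := exists_latMap_eq h.inv h.iter hc0 hcσ hdual (hr' x hx)
    exact ⟨φ, Subtype.ext hφ⟩
  have hfi : ((Lam v π r').addSubgroupOf (Lam v π r)).FiniteIndex :=
    ⟨h.relIndex_Lam_ne_zero r r'⟩
  have hfi2 : ι.range.FiniteIndex := AddSubgroup.finiteIndex_of_le hsub
  have hfin : Finite (↥(Lam v π r) ⧸ ι.range) := inferInstance
  have e1 := hses.h_mul_of_finite_right hσ
  rw [h0_shift, h1_shift, mul_one, mul_one] at e1
  exact ⟨e1, hses.h0_ne_zero_mid hσ (by rw [h0_shift]; exact one_ne_zero)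
    (h0_ne_zero_of_finite _ _)⟩

end Fermat.Agent.CFT.NI
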