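import Fermat.Agent.CFT.NI.Defs

/-!
# WP NI-PAIR (pure algebra) : `Ĥ^i(M)` only depends on `M / N² M`.

`M` an abelian group, `σ^N = 1`, `N` injective on `M`; `D = σ - 1`, `Nm = ∑_{i<N} σ^i`.
  (a) `Ĥ^0(M) → Ĥ^0(M/N)` is injective: `x = Nm y + N z`, `σ x = x` ⇒ `σ z = z` ⇒ `N z = Nm z`.
  (b) its image is the image of `Ĥ^0(M/N²)`: if `D x = N² t` then `Nm t = 0`, so
      `N t = - D (∑_i (1 + σ + … + σ^(i-1)) t) = D s`, `x - N s` is fixed and `≡ x mod N`.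
  (c) `Ĥ^1(M) → Ĥ^1(M/N)` injective: `x = D y + N z`, `Nm x = 0` ⇒ `Nm z = 0` ⇒ `N z ∈ D M`.
  (d) image: `Nm x = N² t` ⇒ `σ t = t` ⇒ `N t = Nm t`, `Nm (x - N t) = 0`.
Hence  `h0 M = [ {x | D x ∈ N²M} + Nm M + N M : Nm M + N M ]`, and similarly `h1`; these numbers are
transported by any `σ`-equivariant bijection which is additive modulo `N²`.
The consumer is `U = U^(r)` (multiplicative), `A = Λ_r`, `φ u = u - 1`.
-/

set_option autoImplicit false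

namespace Fermat.Agent.CFT.NI

open Fermat.Agent.CFT.HQ

section Add

variable {M : Type*} [AddCommGroup M]

/-- `n M` -/
def nR (M : Type*) [AddCommGroup M] (n : ℕ) : AddSubgroup M := (nsmulAddMonoidHom (α := M) n).range

lemma mem_nR {n : ℕ} {x : M} : x ∈ nR M n ↔ ∃ w, n • w = x := Iff.rfl

lemma nsmul_mem_nR (n : ℕ) (w : M) : n • w ∈ nR M n := ⟨w, rfl⟩

lemma nR_sq_le (n : ℕ) : nR M (n ^ 2) ≤ nR M n := by
  rintro _ ⟨w, rfl⟩
  exact ⟨n • w, by simp [sq, mul_nsmul]⟩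

lemma Dm_Nm_gen (σ : M →+ M) (i : ℕ) (t : M) : Dm σ (Nm i σ t) = σ^[i] t - t := by
  rw [Dm_apply, Nm_apply, map_sum, ← Finset.sum_sub_distrib]
  have : ∀ j ∈ Finset.range i, σ (σ^[j] t) - σ^[j] t = σ^[j + 1] t - σ^[j] t := fun j _ => by
    rw [Function.iterate_succ_apply']
  rw [Finset.sum_congr rfl this, Finset.sum_range_sub (fun j => σ^[j] t)]
  simp

lemma exists_Dm_eq_nsmul {N : ℕ} {σ : M →+ M} {t : M} (ht : Nm N σ t = 0) :
    ∃ s, Dm σ s = N • t := by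
  refine ⟨-∑ i ∈ Finset.range N, Nm i σ t, ?_⟩
  rw [map_neg, map_sum]
  simp only [Dm_Nm_gen]
  rw [Finset.sum_sub_distrib, ← Nm_apply, ht]
  simp

lemma iterate_fixed {σ : M →+ M} {t : M} (h : σ t = t) (i : ℕ) : σ^[i] t = t :=
  Function.iterate_fixed h i

lemma Nm_of_fixed {σ : M →+ M} {t : M} (h : σ t = t) (N : ℕ) : Nm N σ t = N • t := by
  rw [Nm_apply]
  simp [iterate_fixed h]

lemma Nm_nsmul (N n : ℕ) (σ : M →+ M) (t : M) : Nm N σ (n • t) = n • Nm N σ t := map_nsmul _ _ _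
lemma Dm_nsmul (n : ℕ) (σ : M →+ M) (t : M) : Dm σ (n • t) = n • Dm σ t := map_nsmul _ _ _

/-- `{x | (σ - 1) x ∈ N² M}` -/
def P0 (N : ℕ) (σ : M →+ M) : AddSubgroup M := (nR M (N ^ 2)).comap (Dm σ)
/-- `Nm M + N M` -/
def Q0 (N : ℕ) (σ : M →+ M) : AddSubgroup M := (Nm N σ).range ⊔ nR M N
/-- `{x | Nm x ∈ N² M}` -/
def P1 (N : ℕ) (σ : M →+ M) : AddSubgroup M := (nR M (N ^ 2)).comap (Nm N σ)
/-- `(σ - 1) M + N M` -/
def Q1 (N : ℕ) (σ : M →+ M) : AddSubgroup M := (Dm σ).range ⊔ nR M N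

variable {N : ℕ} {σ : M →+ M}

lemma mem_Q0 {x : M} : x ∈ Q0 N σ ↔ ∃ y z, x = Nm N σ y + N • z := by
  rw [Q0, AddSubgroup.mem_sup]
  constructor
  · rintro ⟨_, ⟨y, rfl⟩, _, ⟨z, rfl⟩, rfl⟩
    exact ⟨y, z, rfl⟩
  · rintro ⟨y, z, rfl⟩
    exact ⟨_, ⟨y, rfl⟩, _, ⟨z, rfl⟩, rfl⟩

lemma mem_Q1 {x : M} : x ∈ Q1 N σ ↔ ∃ y z, x = Dm σ y + N • z := by
  rw [Q1, AddSubgroup.mem_sup]
  constructor
  · rintro ⟨_, ⟨y, rfl⟩, _, ⟨z, rfl⟩, rfl⟩
    exact ⟨y, z, rfl⟩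
  · rintro ⟨y, z, rfl⟩
    exact ⟨_, ⟨y, rfl⟩, _, ⟨z, rfl⟩, rfl⟩

lemma mem_P0 {x : M} : x ∈ P0 N σ ↔ ∃ t, (N ^ 2) • t = Dm σ x := Iff.rfl
lemma mem_P1 {x : M} : x ∈ P1 N σ ↔ ∃ t, (N ^ 2) • t = Nm N σ x := Iff.rfl

lemma tf_sq (ht : ∀ a : M, N • a = 0 → a = 0) {a : M} (h : (N ^ 2) • a = 0) : a = 0 := by
  rw [sq, mul_nsmul] at h
  exact ht _ (ht _ h)

theorem h0_eq_relIndex (hσ : ∀ x, σ^[N] x = x) (ht : ∀ a : M, N • a = 0 → a = 0) :
    h0 N σ = (Q0 N σ).relIndex (P0 N σ) := by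
  have hle : (Nm N σ).range ≤ (Dm σ).ker := by
    rintro _ ⟨y, rfl⟩
    exact Dm_Nm hσ y
  have ha : Q0 N σ ⊓ (Dm σ).ker = (Nm N σ).range := by
    apply le_antisymm
    · rintro x ⟨hx1, hx2⟩
      obtain ⟨y, z, rfl⟩ := mem_Q0.1 hx1
      have h1 : Dm σ (Nm N σ y + N • z) = 0 := hx2
      rw [map_add, Dm_Nm hσ, zero_add, Dm_nsmul] at h1
      have h2 : σ z = z := mem_ker_Dm.1 (ht _ h1)
      exact ⟨y + z, by rw [map_add, Nm_of_fixed h2]⟩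
    · exact le_inf le_sup_left hle
  have hb : P0 N σ ⊔ Q0 N σ = (Dm σ).ker ⊔ Q0 N σ := by
    apply le_antisymm
    · refine sup_le ?_ le_sup_right
      intro x hx
      obtain ⟨t, ht'⟩ := mem_P0.1 hx
      have h1 : Nm N σ t = 0 := by
        apply tf_sq ht
        rw [← Nm_nsmul, ht', Nm_Dm hσ]
      obtain ⟨s, hs⟩ := exists_Dm_eq_nsmul h1
      have h2 : x - N • s ∈ (Dm σ).ker := by
        rw [AddMonoidHom.mem_ker, map_sub, Dm_nsmul, hs, ← ht', sq, mul_nsmul, sub_self]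
      have h3 : N • s ∈ Q0 N σ := (le_sup_right : nR M N ≤ Q0 N σ) (nsmul_mem_nR N s)
      have : x = (x - N • s) + N • s := by abel
      rw [this]
      exact add_mem ((le_sup_left : _ ≤ (Dm σ).ker ⊔ Q0 N σ) h2)
        ((le_sup_right : _ ≤ (Dm σ).ker ⊔ Q0 N σ) h3)
    · refine sup_le ?_ le_sup_right
      refine le_trans ?_ le_sup_left
      intro x hx
      exact mem_P0.2 ⟨0, by rw [AddMonoidHom.mem_ker.1 hx, smul_zero]⟩
  rw [h0_def, ← ha, AddSubgroup.inf_relIndex_right, ← AddSubgroup.relIndex_sup_right,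
    ← hb, AddSubgroup.relIndex_sup_right]

theorem h1_eq_relIndex (hσ : ∀ x, σ^[N] x = x) (ht : ∀ a : M, N • a = 0 → a = 0) :
    h1 N σ = (Q1 N σ).relIndex (P1 N σ) := by
  have hle : (Dm σ).range ≤ (Nm N σ).ker := by
    rintro _ ⟨y, rfl⟩
    exact Nm_Dm hσ y
  have ha : Q1 N σ ⊓ (Nm N σ).ker = (Dm σ).range := by
    apply le_antisymm
    · rintro x ⟨hx1, hx2⟩
      obtain ⟨y, z, rfl⟩ := mem_Q1.1 hx1
      have h1 : Nm N σ (Dm σ y + N • z) = 0 := hx2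
      rw [map_add, Nm_Dm hσ, zero_add, Nm_nsmul] at h1
      obtain ⟨s, hs⟩ := exists_Dm_eq_nsmul (ht _ h1)
      exact ⟨y + s, by rw [map_add, hs]⟩
    · exact le_inf le_sup_left hle
  have hb : P1 N σ ⊔ Q1 N σ = (Nm N σ).ker ⊔ Q1 N σ := by
    apply le_antisymm
    · refine sup_le ?_ le_sup_right
      intro x hx
      obtain ⟨t, ht'⟩ := mem_P1.1 hx
      have h1 : σ t = t := by
        apply mem_ker_Dm.1
        apply tf_sq ht
        rw [← Dm_nsmul, ht', Dm_Nm hσ]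
      have h2 : x - N • t ∈ (Nm N σ).ker := by
        rw [AddMonoidHom.mem_ker, map_sub, Nm_nsmul, Nm_of_fixed h1, ← ht', sq, mul_nsmul,
          sub_self]
      have h3 : N • t ∈ Q1 N σ := (le_sup_right : nR M N ≤ Q1 N σ) (nsmul_mem_nR N t)
      have : x = (x - N • t) + N • t := by abel
      rw [this]
      exact add_mem ((le_sup_left : _ ≤ (Nm N σ).ker ⊔ Q1 N σ) h2)
        ((le_sup_right : _ ≤ (Nm N σ).ker ⊔ Q1 N σ) h3)
    · refine sup_le ?_ le_sup_right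
      refine le_trans ?_ le_sup_left
      intro x hx
      exact mem_P1.2 ⟨0, by rw [AddMonoidHom.mem_ker.1 hx, smul_zero]⟩
  rw [h1_def, ← ha, AddSubgroup.inf_relIndex_right, ← AddSubgroup.relIndex_sup_right,
    ← hb, AddSubgroup.relIndex_sup_right]

end Add

section Transport

variable {M A Abar : Type*} [AddCommGroup M] [AddCommGroup A] [AddCommGroup Abar]

/-- transport of a relative index through a common quotient -/
theorem relIndex_eq_of_quot (ψ : M →+ Abar) (π : A →+ Abar) (hψ : Function.Surjective ψ)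
    (φ : M → A) (hφ : ∀ u, π (φ u) = ψ u)
    {H K : AddSubgroup A} {H' K' : AddSubgroup M} (hH : π.ker ≤ H) (hK : π.ker ≤ K)
    (hH' : ∀ u, u ∈ H' ↔ φ u ∈ H) (hK' : ∀ u, u ∈ K' ↔ φ u ∈ K) :
    H'.relIndex K' = H.relIndex K := by
  have key : ∀ {L : AddSubgroup A} {L' : AddSubgroup M}, π.ker ≤ L → (∀ u, u ∈ L' ↔ φ u ∈ L) →
      L' = (L.map π).comap ψ := by
    intro L L' hL hL'
    ext u
    rw [hL', AddSubgroup.mem_comap, AddSubgroup.mem_map]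
    constructor
    · intro h
      exact ⟨φ u, h, hφ u⟩
    · rintro ⟨a, ha, hau⟩
      have h1 : φ u - a ∈ π.ker := by
        rw [AddMonoidHom.mem_ker, map_sub, hφ, hau, sub_self]
      have : φ u = (φ u - a) + a := by abel
      rw [this]
      exact add_mem (hL h1) ha
  rw [key hH hH', key hK hK', AddSubgroup.relIndex_comap,
    AddSubgroup.map_comap_eq_self_of_surjective hψ]
  conv_rhs => rw [← AddSubgroup.comap_map_eq_self hH, AddSubgroup.relIndex_comap]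

variable {N : ℕ} {σM : M →+ M} {σA : A →+ A}

theorem h_eq_of_pair
    (hσM : ∀ x, σM^[N] x = x) (hσA : ∀ x, σA^[N] x = x)
    (htM : ∀ u : M, N • u = 0 → u = 0) (htA : ∀ a : A, N • a = 0 → a = 0)
    (φ : M → A) (hφ : Function.Bijective φ) (hφσ : ∀ u, φ (σM u) = σA (φ u))
    (hφadd : ∀ u u', ∃ a, φ (u + u') - φ u - φ u' = (N ^ 2) • a)
    (hφpow : ∀ u, (∃ w, u = (N ^ 2) • w) ↔ ∃ a, φ u = (N ^ 2) • a) :
    h0 N σM = h0 N σA ∧ h1 N σM = h1 N σA := by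
  let π : A →+ A ⧸ nR A (N ^ 2) := QuotientAddGroup.mk' _
  have hπker : π.ker = nR A (N ^ 2) := QuotientAddGroup.ker_mk' _
  have hπ0 : ∀ a : A, π a = 0 ↔ ∃ w, (N ^ 2) • w = a := by
    intro a
    rw [← AddMonoidHom.mem_ker, hπker]
    rfl
  let ψ : M →+ A ⧸ nR A (N ^ 2) := AddMonoidHom.mk' (fun u => π (φ u)) (by
    intro u u'
    obtain ⟨a, ha⟩ := hφadd u u'
    have h1 : π (φ (u + u') - φ u - φ u') = 0 := (hπ0 _).2 ⟨a, ha.symm⟩
    rw [map_sub, map_sub, sub_sub, sub_eq_zero] at h1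
    exact h1)
  have hψ : ∀ u, π (φ u) = ψ u := fun _ => rfl
  have hψsurj : Function.Surjective ψ := by
    intro x
    obtain ⟨a, rfl⟩ := QuotientAddGroup.mk'_surjective _ x
    obtain ⟨u, rfl⟩ := hφ.2 a
    exact ⟨u, rfl⟩
  have hψ0 : ∀ u : M, ψ u = 0 ↔ ∃ w, (N ^ 2) • w = u := by
    intro u
    rw [← hψ, hπ0]
    constructor
    · rintro ⟨a, ha⟩
      obtain ⟨w, hw⟩ := (hφpow u).2 ⟨a, ha.symm⟩
      exact ⟨w, hw.symm⟩
    · rintro ⟨w, hw⟩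
      obtain ⟨a, ha⟩ := (hφpow u).1 ⟨w, hw.symm⟩
      exact ⟨a, ha.symm⟩
  have hiter : ∀ (i : ℕ) (u : M), φ (σM^[i] u) = σA^[i] (φ u) := by
    intro i
    induction i with
    | zero => intro u; rfl
    | succ k ih =>
      intro u
      rw [Function.iterate_succ_apply, Function.iterate_succ_apply, ih, hφσ]
  have F1 : ∀ u, ψ (Dm σM u) = π (Dm σA (φ u)) := by
    intro u
    rw [Dm_apply, Dm_apply, map_sub, map_sub, ← hψ, ← hψ, hφσ]
  have F2 : ∀ u, ψ (Nm N σM u) = π (Nm N σA (φ u)) := by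
    intro u
    rw [Nm_apply, Nm_apply, map_sum, map_sum]
    refine Finset.sum_congr rfl fun i _ => ?_
    rw [← hψ, hiter]
  have F3 : ∀ (n : ℕ) (u : M), ψ (n • u) = π (n • φ u) := by
    intro n u
    rw [map_nsmul, map_nsmul, hψ]
  have kP0 : π.ker ≤ P0 N σA := by
    rw [hπker]
    rintro _ ⟨w, rfl⟩
    exact mem_P0.2 ⟨Dm σA w, (map_nsmul _ _ _).symm⟩
  have kP1 : π.ker ≤ P1 N σA := by
    rw [hπker]
    rintro _ ⟨w, rfl⟩
    exact mem_P1.2 ⟨Nm N σA w, (map_nsmul _ _ _).symm⟩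
  have kQ0 : π.ker ≤ Q0 N σA := by
    rw [hπker]
    exact (nR_sq_le N).trans le_sup_right
  have kQ1 : π.ker ≤ Q1 N σA := by
    rw [hπker]
    exact (nR_sq_le N).trans le_sup_right
  have kQ0M : ∀ u : M, ψ u = 0 → u ∈ Q0 N σM := by
    intro u hu
    exact ((nR_sq_le N).trans le_sup_right) ((hψ0 u).1 hu)
  have kQ1M : ∀ u : M, ψ u = 0 → u ∈ Q1 N σM := by
    intro u hu
    exact ((nR_sq_le N).trans le_sup_right) ((hψ0 u).1 hu)
  have eP0 : ∀ u, u ∈ P0 N σM ↔ φ u ∈ P0 N σA := by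
    intro u
    rw [mem_P0, mem_P0, ← hψ0, ← hπ0, F1]
  have eP1 : ∀ u, u ∈ P1 N σM ↔ φ u ∈ P1 N σA := by
    intro u
    rw [mem_P1, mem_P1, ← hψ0, ← hπ0, F2]
  have eQ0 : ∀ u, u ∈ Q0 N σM ↔ φ u ∈ Q0 N σA := by
    intro u
    constructor
    · intro h
      obtain ⟨y, z, rfl⟩ := mem_Q0.1 h
      have h1 : φ (Nm N σM y + N • z) - (Nm N σA (φ y) + N • φ z) ∈ π.ker := by
        rw [AddMonoidHom.mem_ker, map_sub, hψ, map_add, F2, F3, ← map_add, sub_self]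
      have h2 : Nm N σA (φ y) + N • φ z ∈ Q0 N σA := mem_Q0.2 ⟨_, _, rfl⟩
      have := add_mem (kQ0 h1) h2
      rwa [sub_add_cancel] at this
    · intro h
      obtain ⟨a, b, hab⟩ := mem_Q0.1 h
      obtain ⟨y, rfl⟩ := hφ.2 a
      obtain ⟨z, rfl⟩ := hφ.2 b
      have h1 : ψ (u - (Nm N σM y + N • z)) = 0 := by
        rw [map_sub, map_add, F2, F3, ← map_add, ← hab, hψ, sub_self]
      have h2 : Nm N σM y + N • z ∈ Q0 N σM := mem_Q0.2 ⟨_, _, rfl⟩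
      have := add_mem (kQ0M _ h1) h2
      rwa [sub_add_cancel] at this
  have eQ1 : ∀ u, u ∈ Q1 N σM ↔ φ u ∈ Q1 N σA := by
    intro u
    constructor
    · intro h
      obtain ⟨y, z, rfl⟩ := mem_Q1.1 h
      have h1 : φ (Dm σM y + N • z) - (Dm σA (φ y) + N • φ z) ∈ π.ker := by
        rw [AddMonoidHom.mem_ker, map_sub, hψ, map_add, F1, F3, ← map_add, sub_self]
      have h2 : Dm σA (φ y) + N • φ z ∈ Q1 N σA := mem_Q1.2 ⟨_, _, rfl⟩
      have := add_mem (kQ1 h1) h2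
      rwa [sub_add_cancel] at this
    · intro h
      obtain ⟨a, b, hab⟩ := mem_Q1.1 h
      obtain ⟨y, rfl⟩ := hφ.2 a
      obtain ⟨z, rfl⟩ := hφ.2 b
      have h1 : ψ (u - (Dm σM y + N • z)) = 0 := by
        rw [map_sub, map_add, F1, F3, ← map_add, ← hab, hψ, sub_self]
      have h2 : Dm σM y + N • z ∈ Q1 N σM := mem_Q1.2 ⟨_, _, rfl⟩
      have := add_mem (kQ1M _ h1) h2
      rwa [sub_add_cancel] at this
  constructor
  · rw [h0_eq_relIndex hσM htM, h0_eq_relIndex hσA htA]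
    exact relIndex_eq_of_quot ψ π hψsurj φ hψ kQ0 kP0 eQ0 eP0
  · rw [h1_eq_relIndex hσM htM, h1_eq_relIndex hσA htA]
    exact relIndex_eq_of_quot ψ π hψsurj φ hψ kQ1 kP1 eQ1 eP1

end Transport

variable {U : Type} [CommGroup U] {A : Type} [AddCommGroup A]

theorem mh_eq_h_of_pair {N : ℕ} (hN : 0 < N) {σU : U →* U} {σA : A →+ A}
    (hσU : ∀ x, σU^[N] x = x) (hσA : ∀ x, σA^[N] x = x)
    (htU : ∀ u : U, u ^ N = 1 → u = 1) (htA : ∀ a : A, N • a = 0 → a = 0)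
    (φ : U → A) (hφ : Function.Bijective φ) (hφσ : ∀ u, φ (σU u) = σA (φ u))
    (hφmul : ∀ u u', ∃ a, φ (u * u') - φ u - φ u' = (N ^ 2) • a)
    (hφpow : ∀ u, (∃ w, u = w ^ (N ^ 2)) ↔ ∃ a, φ u = (N ^ 2) • a) :
    mh0 N σU = h0 N σA ∧ mh1 N σU = h1 N σA := by
  rw [mh0_eq, mh1_eq]
  exact h_eq_of_pair (M := Additive U) (toAdditive_iterate_eq hσU) hσA
    (fun u hu => htU u.toMul hu) htA (fun u => φ u.toMul)
    (hφ.comp Additive.toMul.bijective) (fun u => hφσ u.toMul)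
    (fun u u' => hφmul u.toMul u'.toMul) (fun u => hφpow u.toMul)

end Fermat.Agent.CFT.NI
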